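import Mathlib
import Fermat.Agent.S18.CoreDefs
import Fermat.Agent.S37.Deuring.Core
import Fermat.Agent.S18.C.UnramVal
import Fermat.Agent.S18.C.FinEt

/-!
# PROJECT I (S37), slice I-1b-wild (W1/W2): PORT to `Deuring.Core.GaussDatum` of PROJECT H (S18), block C, K-side (A): the Gauss model of the `j`-line at the level of `A`

Abstract setting.  `(L, A)` a valued field with residue map `π : A →+* k` (kernel = non-units),
`FL / L` and `Fk / k` fields which are algebras over the `j`-lines `RatFunc L`, `RatFunc k`,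
`R : Deuring.Core.GaussDatum A π FL Fk` a reduction datum (Gauss valuation ring `R.O` of `FL`, reduction
`R.red : R.O →+* Fk`), such that `j = algebraMap (RatFunc L) FL X` lies in `R.O` and reduces to
`algebraMap (RatFunc k) Fk X`.

* `evO R hx : A[X] →+* R.O` : integral polynomials in `j`; `coe_evO`, `red_evO`;
* `mem_below_iff` (A1) : `Vj := Fermat.Agent.S18.C.UnramVal.below (RatFunc L) R.O = {a / s : a, s ∈ A[X], s̄ ≠ 0}`,
  the Gauss valuation ring of `RatFunc L`;
* `redVj : Vj →+* RatFunc k` with `algebraMap_redVj` (compatibility with `R.red`),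
  `redVj_eq_div` (`redVj (a/s) = ā/s̄`), `redVj_surjective`, `redVj_eq_zero_iff`;
* `exists_hyp` (A2) : the package `UnramVal.Hyp (RatFunc L) R.O R.red redVj t` from the inequality of
  degrees; `finEt` (A3) : `FinEt Vj R.O` when `Fk / k(j)` is separable.
-/

set_option autoImplicit false
set_option linter.unusedSectionVars false

noncomputable section

namespace Fermat.Agent.S37.Wild.GaussA

open Polynomial AlgebraicCurve Fermat.Agent.S37.Deuring.Core Fermat.Agent.S18.C.UnramVal

variable {L : Type*} [Field L] {FL : Type*} [Field FL] [Algebra L FL]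
variable {k : Type*} [Field k] {Fk : Type*} [Field Fk] [Algebra k Fk]
variable [Algebra (RatFunc L) FL] [IsScalarTower L (RatFunc L) FL]
variable [Algebra (RatFunc k) Fk] [IsScalarTower k (RatFunc k) Fk]
variable {A : ValuationSubring L} {π : A →+* k} 
variable (R : GaussDatum A π FL Fk)

/-- constants of `A` as elements of the Gauss valuation ring -/
def constO : A →+* R.O where
  toFun a := ⟨algebraMap L FL (a : L), R.algebraMap_mem a⟩
  map_one' := Subtype.ext (by simp)
  map_mul' a b := Subtype.ext (by simp)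
  map_zero' := Subtype.ext (by simp)
  map_add' a b := Subtype.ext (by simp)

@[simp]
theorem coe_constO (a : A) : ((constO R a : R.O) : FL) = algebraMap L FL (a : L) := rfl

theorem red_constO (a : A) : R.red (constO R a) = algebraMap k Fk (π a) := R.red_algebraMap a

variable (hx : algebraMap (RatFunc L) FL RatFunc.X ∈ R.O)

/-- integral polynomials in `j`, as elements of the Gauss valuation ring -/
def evO : A[X] →+* R.O := Polynomial.eval₂RingHom (constO R) ⟨_, hx⟩

/-- `A[X] → L[X] → RatFunc L` -/
def polyL : A[X] →+* RatFunc L :=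
  (algebraMap L[X] (RatFunc L)).comp (Polynomial.mapRingHom A.subtype)

/-- `A[X] → k[X] → RatFunc k`, coefficientwise reduction -/
def polyK (π : A →+* k) : A[X] →+* RatFunc k :=
  (algebraMap k[X] (RatFunc k)).comp (Polynomial.mapRingHom π)

theorem polyL_apply (p : A[X]) : polyL p = algebraMap L[X] (RatFunc L) (p.map A.subtype) := rfl

theorem polyK_apply (p : A[X]) : polyK π p = algebraMap k[X] (RatFunc k) (p.map π) := rfl

theorem polyL_injective : Function.Injective (polyL (A := A)) := by
  intro p q h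
  have h1 := RatFunc.algebraMap_injective L h
  exact Polynomial.map_injective _ Subtype.val_injective h1

theorem polyK_ne_zero {p : A[X]} (hp : p.map π ≠ 0) : polyK π p ≠ 0 := by
  rw [polyK_apply]
  exact (map_ne_zero_iff _ (RatFunc.algebraMap_injective k)).mpr hp

theorem coe_evO (p : A[X]) :
    ((evO R hx p : R.O) : FL) = algebraMap (RatFunc L) FL (polyL p) := by
  have h : (R.O.subtype.comp (evO R hx)) = (algebraMap (RatFunc L) FL).comp polyL := by
    refine Polynomial.ringHom_ext (fun a => ?_) ?_
    · simp only [RingHom.comp_apply, evO, Polynomial.coe_eval₂RingHom, Polynomial.eval₂_C,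
        polyL, Polynomial.coe_mapRingHom, Polynomial.map_C]
      rw [RatFunc.algebraMap_C, ← RatFunc.algebraMap_eq_C, ← IsScalarTower.algebraMap_apply]
      rfl
    · simp only [RingHom.comp_apply, evO, Polynomial.coe_eval₂RingHom, Polynomial.eval₂_X,
        polyL, Polynomial.coe_mapRingHom, Polynomial.map_X, RatFunc.algebraMap_X]
      rfl
  exact congrFun (congrArg DFunLike.coe h) p

variable (hrx : R.red ⟨_, hx⟩ = algebraMap (RatFunc k) Fk RatFunc.X)

include hrx in
theorem red_evO (p : A[X]) : R.red (evO R hx p) = algebraMap (RatFunc k) Fk (polyK π p) := by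
  have h : R.red.comp (evO R hx) = (algebraMap (RatFunc k) Fk).comp (polyK π) := by
    refine Polynomial.ringHom_ext (fun a => ?_) ?_
    · simp only [RingHom.comp_apply, evO, Polynomial.coe_eval₂RingHom, Polynomial.eval₂_C,
        polyK, Polynomial.coe_mapRingHom, Polynomial.map_C]
      rw [RatFunc.algebraMap_C, ← RatFunc.algebraMap_eq_C, ← IsScalarTower.algebraMap_apply]
      exact red_constO R a
    · simp only [RingHom.comp_apply, evO, Polynomial.coe_eval₂RingHom, Polynomial.eval₂_X,
        polyK, Polynomial.coe_mapRingHom, Polynomial.map_X, RatFunc.algebraMap_X]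
      exact hrx
  exact congrFun (congrArg DFunLike.coe h) p

include hrx in
/-- a polynomial in `j` with nonzero reduction is a Gauss unit -/
theorem isUnit_evO {p : A[X]} (hp : p.map π ≠ 0) : IsUnit (evO R hx p) := by
  by_contra hnu
  have h0 := (R.red_eq_zero_iff _).mpr hnu
  rw [red_evO R hx hrx, map_eq_zero] at h0
  exact polyK_ne_zero hp h0

/-- **scaling**: a nonzero polynomial over `L` is a constant times a primitive polynomial over
`A` (one coefficient equal to `1`). -/
theorem exists_scale_poly (π : A →+* k) (p : L[X]) (hp : p ≠ 0) :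
    ∃ (c : L) (p₀ : A[X]), c ≠ 0 ∧ p₀.map π ≠ 0 ∧ p = Polynomial.C c * p₀.map A.subtype := by
  have hne : p.support.Nonempty := Polynomial.nonempty_support_iff.mpr hp
  obtain ⟨m, hm, hmax⟩ := Finset.exists_max_image p.support
    (fun i => A.valuation (p.coeff i)) hne
  have hc : p.coeff m ≠ 0 := Polynomial.mem_support_iff.mp hm
  have hmem : ∀ i, p.coeff i / p.coeff m ∈ A := by
    intro i
    by_cases hi : i ∈ p.support
    · rw [← ValuationSubring.valuation_le_one_iff, map_div₀]
      exact div_le_one_of_le₀ (hmax i hi) zero_le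
    · rw [Polynomial.notMem_support_iff.mp hi, zero_div]
      exact A.zero_mem
  have hlift : Polynomial.C (p.coeff m)⁻¹ * p ∈ Polynomial.lifts A.subtype := by
    rw [Polynomial.lifts_iff_coeff_lifts]
    intro i
    rw [Polynomial.coeff_C_mul]
    exact ⟨⟨p.coeff i / p.coeff m, hmem i⟩, by simp [div_eq_inv_mul]⟩
  obtain ⟨p₀, hp₀⟩ := (Polynomial.mem_lifts _).mp hlift
  refine ⟨p.coeff m, p₀, hc, ?_, ?_⟩
  · intro h0
    have h1 : (p₀.map π).coeff m = 0 := by rw [h0, Polynomial.coeff_zero]
    rw [Polynomial.coeff_map] at h1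
    have h2 : p₀.coeff m = 1 := by
      apply Subtype.ext
      have h3 := congrArg (fun q => Polynomial.coeff q m) hp₀
      simp only [Polynomial.coeff_map, Polynomial.coeff_C_mul] at h3
      rw [inv_mul_cancel₀ hc] at h3
      exact h3
    rw [h2, map_one] at h1
    exact one_ne_zero h1
  · rw [hp₀, ← mul_assoc, ← Polynomial.C_mul, mul_inv_cancel₀ hc, Polynomial.C_1, one_mul]

/-! ### (A1) the trace of the Gauss valuation ring on the `j`-line -/

/-- the Gauss valuation ring of the `j`-line `RatFunc L` -/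
abbrev Vj : ValuationSubring (RatFunc L) := below (RatFunc L) R.O

include hrx in
theorem mem_Vj_of_rel {f : RatFunc L} {a s : A[X]} (hs : s.map π ≠ 0)
    (h : f * polyL s = polyL a) : f ∈ Vj R := by
  rw [mem_below]
  have hu := isUnit_evO R hx hrx hs
  have h1 : algebraMap (RatFunc L) FL f * ((evO R hx s : R.O) : FL) = ((evO R hx a : R.O) : FL) := by
    rw [coe_evO, coe_evO, ← map_mul, h]
  have h2 : ((evO R hx s : R.O) : FL) * (((hu.unit⁻¹ : (R.O)ˣ) : R.O) : FL) = 1 := by
    have h3 := congrArg Subtype.val hu.unit.mul_inv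
    rw [IsUnit.unit_spec] at h3
    exact h3
  have h4 : algebraMap (RatFunc L) FL f =
      ((evO R hx a * ((hu.unit⁻¹ : (R.O)ˣ) : R.O) : R.O) : FL) := by
    show _ = ((evO R hx a : R.O) : FL) * (((hu.unit⁻¹ : (R.O)ˣ) : R.O) : FL)
    rw [← h1, mul_assoc, h2, mul_one]
  rw [h4]
  exact Subtype.coe_prop _

include hrx in
/-- **(A1)** `Vj = {a / s : a, s ∈ A[X], s̄ ≠ 0}`. -/
theorem mem_Vj_iff (f : RatFunc L) :
    f ∈ Vj R ↔ ∃ a s : A[X], s.map π ≠ 0 ∧ f * polyL s = polyL a := by
  constructor
  · intro hf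
    rw [mem_below] at hf
    by_cases hf0 : f = 0
    · refine ⟨0, 1, ?_, by rw [hf0, zero_mul, map_zero]⟩
      rw [Polynomial.map_one]
      exact one_ne_zero
    have hnum : f.num ≠ 0 := RatFunc.num_ne_zero hf0
    have hden : f.denom ≠ 0 := RatFunc.denom_ne_zero f
    obtain ⟨c₁, n₀, hc₁, hn₀, hn⟩ := exists_scale_poly π f.num hnum
    obtain ⟨c₂, d₀, hc₂, hd₀, hd⟩ := exists_scale_poly π f.denom hden
    have hfd : f * algebraMap L[X] (RatFunc L) f.denom = algebraMap L[X] (RatFunc L) f.num := by
      have h1 := RatFunc.num_div_denom f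
      have h2 : algebraMap L[X] (RatFunc L) f.denom ≠ 0 :=
        (map_ne_zero_iff _ (RatFunc.algebraMap_injective L)).mpr hden
      have h3 := div_mul_cancel₀ (algebraMap L[X] (RatFunc L) f.num) h2
      rwa [h1] at h3
    -- `f * (C c₂ * polyL d₀) = C c₁ * polyL n₀`
    have hrel : f * (RatFunc.C c₂ * polyL d₀) = RatFunc.C c₁ * polyL n₀ := by
      rw [polyL_apply, polyL_apply, ← RatFunc.algebraMap_C, ← RatFunc.algebraMap_C, ← map_mul,
        ← map_mul, ← hn, ← hd]
      exact hfd
    have hun := isUnit_evO R hx hrx hn₀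
    have hud := isUnit_evO R hx hrx hd₀
    -- the constant `c₁ / c₂` is Gauss-integral
    have hcmem : algebraMap L FL (c₁ / c₂) ∈ R.O := by
      have h1 : algebraMap (RatFunc L) FL f * (algebraMap L FL c₂ * ((evO R hx d₀ : R.O) : FL)) =
          algebraMap L FL c₁ * ((evO R hx n₀ : R.O) : FL) := by
        rw [coe_evO, coe_evO, IsScalarTower.algebraMap_apply L (RatFunc L) FL c₂,
          IsScalarTower.algebraMap_apply L (RatFunc L) FL c₁, RatFunc.algebraMap_eq_C,
          ← map_mul, ← map_mul, ← map_mul, hrel]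
      have h2 : ((evO R hx n₀ : R.O) : FL) * (((hun.unit⁻¹ : (R.O)ˣ) : R.O) : FL) = 1 := by
        have h3 := congrArg Subtype.val hun.unit.mul_inv
        rw [IsUnit.unit_spec] at h3
        exact h3
      have hc₂' : algebraMap L FL c₂ ≠ 0 := (map_ne_zero_iff _ (algebraMap L FL).injective).mpr hc₂
      have h5 : algebraMap L FL (c₁ / c₂) =
          ((⟨algebraMap (RatFunc L) FL f, hf⟩ * evO R hx d₀ *
            ((hun.unit⁻¹ : (R.O)ˣ) : R.O) : R.O) : FL) := by
        show _ = algebraMap (RatFunc L) FL f * ((evO R hx d₀ : R.O) : FL) *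
          (((hun.unit⁻¹ : (R.O)ˣ) : R.O) : FL)
        rw [map_div₀, div_eq_iff hc₂']
        calc algebraMap L FL c₁ = algebraMap L FL c₁ * (((evO R hx n₀ : R.O) : FL) *
              (((hun.unit⁻¹ : (R.O)ˣ) : R.O) : FL)) := by rw [h2, mul_one]
          _ = algebraMap (RatFunc L) FL f * (algebraMap L FL c₂ * ((evO R hx d₀ : R.O) : FL)) *
              (((hun.unit⁻¹ : (R.O)ˣ) : R.O) : FL) := by rw [h1]; ring
          _ = _ := by ring
      rw [h5]
      exact Subtype.coe_prop _
    have hcA : c₁ / c₂ ∈ A := R.mem_of_algebraMap_mem _ hcmem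
    refine ⟨Polynomial.C ⟨c₁ / c₂, hcA⟩ * n₀, d₀, hd₀, ?_⟩
    have h6 : polyL (Polynomial.C (⟨c₁ / c₂, hcA⟩ : A) * n₀) = RatFunc.C (c₁ / c₂) * polyL n₀ := by
      rw [map_mul]
      congr 1
      rw [polyL_apply, Polynomial.map_C, RatFunc.algebraMap_C]
      rfl
    rw [h6]
    have hC₂ : (RatFunc.C c₂ : RatFunc L) ≠ 0 :=
      (map_ne_zero_iff _ (RatFunc.C (K := L)).injective).mpr hc₂
    apply mul_left_cancel₀ hC₂
    rw [map_div₀]
    field_simp
    rw [← hrel]
    ring
  · rintro ⟨a, s, hs, h⟩
    exact mem_Vj_of_rel R hx hrx hs h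

/-! ### the reduction of the Gauss valuation ring of the `j`-line -/

include hrx in
theorem exists_redVj (x : Vj R) :
    ∃ y : RatFunc k, algebraMap (RatFunc k) Fk y = R.red (incl (RatFunc L) R.O x) := by
  obtain ⟨a, s, hs, h⟩ := (mem_Vj_iff R hx hrx (x : RatFunc L)).mp x.2
  refine ⟨polyK π a / polyK π s, ?_⟩
  have h1 : incl (RatFunc L) R.O x * evO R hx s = evO R hx a := by
    apply Subtype.ext
    show algebraMap (RatFunc L) FL (x : RatFunc L) * ((evO R hx s : R.O) : FL) = _
    rw [coe_evO, coe_evO, ← map_mul, h]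
  have h2 := congrArg R.red h1
  rw [map_mul, red_evO R hx hrx, red_evO R hx hrx] at h2
  have h3 : algebraMap (RatFunc k) Fk (polyK π s) ≠ 0 :=
    (map_ne_zero_iff _ (algebraMap (RatFunc k) Fk).injective).mpr (polyK_ne_zero hs)
  rw [map_div₀, ← h2, mul_div_cancel_right₀ _ h3]

/-- the reduction `Vj → RatFunc k`, defined by compatibility with `R.red` -/
def redVj : Vj R →+* RatFunc k where
  toFun x := Classical.choose (exists_redVj R hx hrx x)
  map_one' := by
    apply (algebraMap (RatFunc k) Fk).injective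
    rw [Classical.choose_spec (exists_redVj R hx hrx 1), map_one, map_one, map_one]
  map_mul' x y := by
    apply (algebraMap (RatFunc k) Fk).injective
    rw [Classical.choose_spec (exists_redVj R hx hrx (x * y)), map_mul, map_mul, map_mul,
      Classical.choose_spec (exists_redVj R hx hrx x),
      Classical.choose_spec (exists_redVj R hx hrx y)]
  map_zero' := by
    apply (algebraMap (RatFunc k) Fk).injective
    rw [Classical.choose_spec (exists_redVj R hx hrx 0), map_zero, map_zero, map_zero]
  map_add' x y := by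
    apply (algebraMap (RatFunc k) Fk).injective
    rw [Classical.choose_spec (exists_redVj R hx hrx (x + y)), map_add, map_add, map_add,
      Classical.choose_spec (exists_redVj R hx hrx x),
      Classical.choose_spec (exists_redVj R hx hrx y)]

/-- **compatibility** of `redVj` with the reduction of the Gauss valuation ring -/
theorem algebraMap_redVj (x : Vj R) :
    algebraMap (RatFunc k) Fk (redVj R hx hrx x) = R.red (incl (RatFunc L) R.O x) :=
  Classical.choose_spec (exists_redVj R hx hrx x)

/-- `redVj (a / s) = ā / s̄` -/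
theorem redVj_mul_polyK (x : Vj R) {a s : A[X]} (h : (x : RatFunc L) * polyL s = polyL a) :
    redVj R hx hrx x * polyK π s = polyK π a := by
  apply (algebraMap (RatFunc k) Fk).injective
  rw [map_mul, algebraMap_redVj, ← red_evO R hx hrx, ← red_evO R hx hrx, ← map_mul]
  congr 1
  apply Subtype.ext
  show algebraMap (RatFunc L) FL (x : RatFunc L) * ((evO R hx s : R.O) : FL) = _
  rw [coe_evO, coe_evO, ← map_mul, h]

include hx in
theorem polyL_mem_Vj (p : A[X]) : polyL p ∈ Vj R := by
  rw [mem_below, ← coe_evO R hx]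
  exact Subtype.coe_prop _

/-- polynomials over `A` reduce coefficientwise -/
theorem redVj_polyL (p : A[X]) : redVj R hx hrx ⟨polyL p, polyL_mem_Vj R hx p⟩ = polyK π p := by
  have h := redVj_mul_polyK R hx hrx ⟨polyL p, polyL_mem_Vj R hx p⟩ (a := p) (s := 1)
    (by rw [map_one, mul_one])
  rwa [map_one, mul_one] at h

theorem redVj_eq_zero_iff (x : Vj R) : redVj R hx hrx x = 0 ↔ ¬ IsUnit x := by
  rw [← map_eq_zero_iff _ (algebraMap (RatFunc k) Fk).injective, algebraMap_redVj,
    R.red_eq_zero_iff]
  refine not_congr ⟨fun hu => ?_, fun hu => hu.map (incl (RatFunc L) R.O)⟩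
  obtain ⟨w, hw⟩ := hu.exists_right_inv
  have hw' : algebraMap (RatFunc L) FL (x : RatFunc L) * (w : FL) = 1 := congrArg Subtype.val hw
  have hx0 : (x : RatFunc L) ≠ 0 := by
    intro h0
    rw [h0, map_zero, zero_mul] at hw'
    exact zero_ne_one hw'
  have hmem : (x : RatFunc L)⁻¹ ∈ Vj R := by
    rw [mem_below, map_inv₀]
    have : (algebraMap (RatFunc L) FL (x : RatFunc L))⁻¹ = (w : FL) :=
      inv_eq_of_mul_eq_one_right hw'
    rw [this]
    exact w.2
  refine IsUnit.of_mul_eq_one (⟨(x : RatFunc L)⁻¹, hmem⟩ : Vj R) ?_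
  apply Subtype.ext
  show (x : RatFunc L) * (x : RatFunc L)⁻¹ = 1
  exact mul_inv_cancel₀ hx0

/-- `redVj` is onto when `π` is -/
theorem redVj_surjective (hπs : Function.Surjective π) :
    Function.Surjective (redVj R hx hrx) := by
  intro y
  obtain ⟨a, ha⟩ := Polynomial.map_surjective π hπs y.num
  obtain ⟨s, hs⟩ := Polynomial.map_surjective π hπs y.denom
  have hs0 : s.map π ≠ 0 := by rw [hs]; exact RatFunc.denom_ne_zero y
  have hsL : polyL s ≠ 0 := by
    intro h0
    apply hs0
    have : s = 0 := polyL_injective (by rw [h0, map_zero])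
    rw [this, Polynomial.map_zero]
  have hrel : polyL a / polyL s * polyL s = polyL a := div_mul_cancel₀ _ hsL
  refine ⟨⟨polyL a / polyL s, mem_Vj_of_rel R hx hrx hs0 hrel⟩, ?_⟩
  have h := redVj_mul_polyK R hx hrx ⟨polyL a / polyL s, mem_Vj_of_rel R hx hrx hs0 hrel⟩ hrel
  rw [polyK_apply, polyK_apply, ha, hs] at h
  have hden : algebraMap k[X] (RatFunc k) y.denom ≠ 0 :=
    (map_ne_zero_iff _ (RatFunc.algebraMap_injective k)).mpr (RatFunc.denom_ne_zero y)
  rw [← RatFunc.num_div_denom y, eq_div_iff hden]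
  exact h

/-! ### (A2), (A3): the unramified package and finite étaleness -/

section Package

variable [FiniteDimensional (RatFunc L) FL]

attribute [local instance] algBelow

/-- **(A2)** the package of `UnramVal` for `R.O` over the Gauss valuation ring of the `j`-line -/
theorem exists_hyp (hsurj : Function.Surjective R.red)
    (hdim : Module.finrank (RatFunc L) FL ≤ Module.finrank (RatFunc k) Fk) :
    ∃ t : Fin (Module.finrank (RatFunc L) FL) → R.O,
      Hyp (RatFunc L) R.O R.red (redVj R hx hrx) t :=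
  Fermat.Agent.S18.C.UnramVal.exists_hyp R.red_eq_zero_iff hsurj (algebraMap_redVj R hx hrx) hdim

/-- **(A3)** `R.O` is finite étale over the Gauss valuation ring of the `j`-line -/
theorem finEt [Algebra.IsSeparable (RatFunc k) Fk] {ι : Type*} [Fintype ι] [DecidableEq ι]
    {t : ι → R.O} (h : Hyp (RatFunc L) R.O R.red (redVj R hx hrx) t) :
    Fermat.Agent.S18.C.FinEt.FinEt (Vj R) R.O :=
  Fermat.Agent.S18.C.FinEt.finEt_of_basis h.basisV h.isUnit_discr

end Package

end Fermat.Agent.S37.Wild.GaussA
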