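import Mathlib
import Fermat.Agent.S37.Wild.GaussA2
import Fermat.Agent.S18.C.TensorRed
import Fermat.Agent.S18.C.RAlgStructure

/-!
# PROJECT I (S37), slice I-1b-wild (W1/W2): PORT to `Deuring.Core.GaussDatum` of PROJECT H (S18), block C, K-side: the model `sp : C_A → R_k` (instantiation of `C/TensorRed`)

Abstract setting of `C/GaussA`, `C/GaussA2` (`R : GaussDatum A π FL Fk`, `j ∈ R.O` reducing to `j̄`,
a cover `c` good over `L` and over `k`).  From the unramified package `Hyp` of `R.O` over the Gauss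
valuation ring `Vj R` of the `j`-line (and separability of the residue extension) we construct

* `tau : W_A ⊗[Vj] R.O →ₐ[W_A] R_L`, `w ⊗ o ↦ incMu w * incF o`;
* `sp : C_A = CInt c FL A →+* R_k = RAlg c k Fk` (`TensorRed.sp`), with
  `sp_BA`, `sp_incF`, `sp_gal` (equivariance) and `basis_map`.
-/

set_option autoImplicit false
set_option linter.unusedSectionVars false
set_option linter.style.haveILetI false

noncomputable section

namespace Fermat.Agent.S37.Wild.KModel

open Polynomial TensorProduct AlgebraicCurve Fermat.Agent.S37.Deuring.Core Fermat.Agent.S18.C.UnramVal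
  Fermat.Agent.S37.Wild.GaussA Fermat.Agent.S37.Wild.GaussA2 Fermat.Agent.S18.C.Defs
  Fermat.Agent.S18.C.SurfaceDefs Fermat.Agent.S18.C.RAlgStructure Fermat.Agent.S18.C.FinEt

variable {L : Type*} [Field L] {FL : Type*} [Field FL] [Algebra L FL]
variable {k : Type*} [Field k] {Fk : Type*} [Field Fk] [Algebra k Fk]
variable [Algebra (RatFunc L) FL] [IsScalarTower L (RatFunc L) FL]
variable [Algebra (RatFunc k) Fk] [IsScalarTower k (RatFunc k) Fk]
variable {A : ValuationSubring L} {π : A →+* k} 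
variable (R : GaussDatum A π FL Fk)

/-- the datum "`j` is Gauss-integral and reduces to `j̄`", as a class (so that the auxiliary algebra
structures below can be instances) -/
class JIn : Prop where
  mem : algebraMap (RatFunc L) FL RatFunc.X ∈ R.O
  red_eq : R.red ⟨_, mem⟩ = algebraMap (RatFunc k) Fk RatFunc.X

variable [hJ : JIn R] (c : Cover) [c.Good L] [c.Good k]

/-- `W_A` as an algebra over `Vj` through the cover -/
local instance algVjW : Algebra (Vj R) (WA R c) := (covW R hJ.mem hJ.red_eq c).toAlgebra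

/-- `W_A` as an algebra over `B_A` -/
local instance algBW : Algebra (BRing c A) (WA R c) := (incBW R hJ.mem hJ.red_eq c).toAlgebra

/-- `R_L` as an algebra over `W_A` -/
local instance algWR : Algebra (WA R c) (RAlg c L FL) :=
  ((algebraMap (MuLine c L) (RAlg c L FL)).comp (WA R c).subtype).toAlgebra

attribute [local instance] algBelow

theorem algebraMap_Vj_RL (x : Vj R) :
    algebraMap (Vj R) (RAlg c L FL) x =
      (algebraMap (RatFunc L) FL (x : RatFunc L)) ⊗ₜ[RatFunc L] (1 : MuLine c L) := rfl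

theorem algebraMap_W_RL (w : WA R c) :
    algebraMap (WA R c) (RAlg c L FL) w = (1 : FL) ⊗ₜ[RatFunc L] (w : MuLine c L) := rfl

theorem algebraMap_B_RL (b : BRing c A) :
    algebraMap (BRing c A) (RAlg c L FL) b = (1 : FL) ⊗ₜ[RatFunc L] (b : MuLine c L) := rfl

local instance : IsScalarTower (Vj R) (WA R c) (RAlg c L FL) :=
  IsScalarTower.of_algebraMap_eq fun x => by
    rw [algebraMap_Vj_RL, algebraMap_W_RL]
    show _ = (1 : FL) ⊗ₜ[RatFunc L] (algebraMap (RatFunc L) (MuLine c L) (x : RatFunc L))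
    rw [Algebra.algebraMap_eq_smul_one, Algebra.algebraMap_eq_smul_one (A := MuLine c L),
      TensorProduct.smul_tmul]

local instance : IsScalarTower (WA R c) (MuLine c L) (RAlg c L FL) :=
  IsScalarTower.of_algebraMap_eq fun _ => rfl

local instance : IsScalarTower (BRing c A) (WA R c) (MuLine c L) :=
  IsScalarTower.of_algebraMap_eq fun _ => rfl

local instance : IsScalarTower (BRing c A) (WA R c) (RAlg c L FL) :=
  IsScalarTower.of_algebraMap_eq fun _ => rfl

/-- `R.O → R_L`, `o ↦ o ⊗ 1`, as a `Vj`-algebra map -/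
def incO : R.O →ₐ[Vj R] RAlg c L FL where
  toFun o := (o : FL) ⊗ₜ[RatFunc L] (1 : MuLine c L)
  map_one' := rfl
  map_mul' x y := by
    show ((x : FL) * (y : FL)) ⊗ₜ[RatFunc L] (1 : MuLine c L) = _
    rw [Algebra.TensorProduct.tmul_mul_tmul, mul_one]
  map_zero' := by
    show (0 : FL) ⊗ₜ[RatFunc L] (1 : MuLine c L) = 0
    rw [TensorProduct.zero_tmul]
  map_add' x y := by
    show ((x : FL) + (y : FL)) ⊗ₜ[RatFunc L] (1 : MuLine c L) = _
    rw [TensorProduct.add_tmul]
  commutes' x := rfl

theorem incO_apply (o : R.O) : incO R c o = incF c L FL (o : FL) := rfl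

/-- **`tau : W_A ⊗[Vj] R.O → R_L`**, `w ⊗ o ↦ incMu w * incF o` -/
def tau : WA R c ⊗[Vj R] R.O →ₐ[WA R c] RAlg c L FL :=
  Algebra.TensorProduct.lift (Algebra.ofId (WA R c) (RAlg c L FL)) (incO R c)
    (fun _ _ => Commute.all _ _)

theorem tau_tmul (w : WA R c) (o : R.O) :
    tau R c (w ⊗ₜ[Vj R] o) = incMu c L FL (w : MuLine c L) * incF c L FL (o : FL) := by
  rw [tau, Algebra.TensorProduct.lift_tmul]
  rfl

theorem tau_one_tmul (o : R.O) : tau R c ((1 : WA R c) ⊗ₜ[Vj R] o) = incF c L FL (o : FL) := by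
  rw [tau_tmul]
  show incMu c L FL (1 : MuLine c L) * _ = _
  rw [map_one, one_mul]

/-! ### the model -/

section Model

variable [FiniteDimensional (RatFunc L) FL] [Algebra.IsSeparable (RatFunc k) Fk]
variable {ι : Type*} [Fintype ι] [DecidableEq ι] {t : ι → R.O}
  (h : Hyp (RatFunc L) R.O R.red (redVj R hJ.mem hJ.red_eq) t)

theorem tau_basis (i : ι) :
    tau R c ((1 : WA R c) ⊗ₜ[Vj R] h.basisV i) = muBasis c L FL h.basisE i := by
  rw [tau_one_tmul, Hyp.basisV_apply, muBasis_apply, Hyp.basisE_apply]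

theorem basisRes_eq (i : ι) : h.basisRes i = R.red (h.basisV i) := by
  rw [Hyp.basisRes_apply, Hyp.basisV_apply]

/-- **the specialisation map** `sp : C_A → R_k` -/
def sp : CInt c FL A →+* RAlg c k Fk :=
  Fermat.Agent.S18.C.TensorRed.sp (B := BRing c A) (redVj R hJ.mem hJ.red_eq) (redW R hJ.mem hJ.red_eq c) R.red
    (redW_covW R hJ.mem hJ.red_eq c) (fun x => (algebraMap_redVj R hJ.mem hJ.red_eq x).symm)
    (finEt R hJ.mem hJ.red_eq h) (tau R c) h.basisV (muBasis c L FL h.basisE) (tau_basis R c h)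

/-- `sp` on `B_A` is the coefficientwise reduction `redBA` -/
theorem sp_BA (x : BRing c A) :
    sp R c h (algebraMap (BRing c A) (CInt c FL A) x) =
      incMu c k Fk (redBA R hJ.mem hJ.red_eq c x : MuLine c k) :=
  Fermat.Agent.S18.C.TensorRed.sp_algebraMap (B := BRing c A) (redVj R hJ.mem hJ.red_eq) (redW R hJ.mem hJ.red_eq c)
    R.red (redW_covW R hJ.mem hJ.red_eq c) (fun x => (algebraMap_redVj R hJ.mem hJ.red_eq x).symm)
    (finEt R hJ.mem hJ.red_eq h) (tau R c) h.basisV (muBasis c L FL h.basisE) (tau_basis R c h) x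

/-- `sp` on the image of the Gauss valuation ring is the reduction `R.red` -/
theorem sp_incF (o : R.O) (ho : IsIntegral (BRing c A) (incF c L FL (o : FL))) :
    sp R c h (⟨incF c L FL (o : FL), ho⟩ : CInt c FL A) = incF c k Fk (R.red o) := by
  have h1 : IsIntegral (BRing c A) (tau R c ((1 : WA R c) ⊗ₜ[Vj R] o)) := by
    rw [tau_one_tmul]; exact ho
  have h2 := Fermat.Agent.S18.C.TensorRed.sp_of_tau_tmul (B := BRing c A) (redVj R hJ.mem hJ.red_eq)
    (redW R hJ.mem hJ.red_eq c) R.red (redW_covW R hJ.mem hJ.red_eq c)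
    (fun x => (algebraMap_redVj R hJ.mem hJ.red_eq x).symm)
    (finEt R hJ.mem hJ.red_eq h) (tau R c) h.basisV (muBasis c L FL h.basisE) (tau_basis R c h)
    (1 : WA R c) o h1
  have h3 : (⟨incF c L FL (o : FL), ho⟩ : CInt c FL A) =
      ⟨tau R c ((1 : WA R c) ⊗ₜ[Vj R] o), h1⟩ := Subtype.ext (tau_one_tmul R c o).symm
  rw [h3]
  refine h2.trans ?_
  rw [map_one]
  rfl

/-- **`basis_map`**: if `C_A` is finite étale over `B_A`, every finite `B_A`-basis of `C_A` is
mapped by `sp` to a `k(μ)`-basis of `R_k` -/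
theorem basis_map [IsDomain (BRing c A)] [IsFractionRing (BRing c A) (MuLine c L)]
    (hS : FinEt (BRing c A) (CInt c FL A))
    {ι' : Type*} [Fintype ι'] (b : Module.Basis ι' (BRing c A) (CInt c FL A)) :
    LinearIndependent (MuLine c k) (fun i => sp R c h (b i)) ∧
      ⊤ ≤ Submodule.span (MuLine c k) (Set.range fun i => sp R c h (b i)) :=
  Fermat.Agent.S18.C.TensorRed.basis_map (B := BRing c A) (redVj R hJ.mem hJ.red_eq) (redW R hJ.mem hJ.red_eq c)
    R.red (redW_covW R hJ.mem hJ.red_eq c) (fun x => (algebraMap_redVj R hJ.mem hJ.red_eq x).symm)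
    (finEt R hJ.mem hJ.red_eq h) (tau R c) h.basisV (muBasis c L FL h.basisE) (tau_basis R c h)
    h.basisRes (basisRes_eq R h) hS b

end Model

/-! ### equivariance -/

section Equivariance

/-- the Moebius data of a pair `(g, g')` of automorphisms of the `μ`-lines over `L` and `k`:
`g μ = T(μ)/B(μ)`, `g' μ = T̄(μ)/B̄(μ)` with `T, B ∈ A[X]`, `B̄ ≠ 0` -/
def GalData (g : c.Gal L) (g' : c.Gal k) : Prop :=
  ∃ T B : A[X], toRat c L (g (MuLine.mu c L)) * polyL B = polyL T ∧
    toRat c k (g' (MuLine.mu c k)) * polyK π B = polyK π T ∧ B.map π ≠ 0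

variable {c}
variable {g : c.Gal L} {g' : c.Gal k}

theorem GalData.mem (hd : GalData (A := A) (π := π) c g g') {w : MuLine c L} (hw : w ∈ WA R c) :
    g w ∈ WA R c := by
  obtain ⟨T, B, h1, h2, h3⟩ := hd
  exact gal_mem_WA R hJ.mem hJ.red_eq c g g' h1 h2 h3 hw

theorem GalData.redW (hd : GalData (A := A) (π := π) c g g') (w : WA R c) :
    redW R hJ.mem hJ.red_eq c ⟨g (w : MuLine c L), hd.mem R w.2⟩ =
      g' (redW R hJ.mem hJ.red_eq c w) := by
  obtain ⟨T, B, h1, h2, h3⟩ := hd
  exact redW_gal R hJ.mem hJ.red_eq c g g' h1 h2 h3 w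

/-- the automorphism of `W_A` over `Vj` induced by `g` -/
def galW (hd : GalData (A := A) (π := π) c g g')
    (hd' : GalData (A := A) (π := π) c g⁻¹ g'⁻¹) : WA R c ≃ₐ[Vj R] WA R c where
  toFun w := ⟨g (w : MuLine c L), hd.mem R w.2⟩
  invFun w := ⟨g⁻¹ (w : MuLine c L), hd'.mem R w.2⟩
  left_inv w := Subtype.ext (by
    show g⁻¹ (g (w : MuLine c L)) = w
    rw [← AlgEquiv.mul_apply, inv_mul_cancel, AlgEquiv.one_apply])
  right_inv w := Subtype.ext (by
    show g (g⁻¹ (w : MuLine c L)) = w
    rw [← AlgEquiv.mul_apply, mul_inv_cancel, AlgEquiv.one_apply])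
  map_mul' x y := Subtype.ext (map_mul g _ _)
  map_add' x y := Subtype.ext (map_add g _ _)
  commutes' x := Subtype.ext (g.commutes (x : RatFunc L))

theorem coe_galW (hd : GalData (A := A) (π := π) c g g')
    (hd' : GalData (A := A) (π := π) c g⁻¹ g'⁻¹) (w : WA R c) :
    ((galW R hd hd' w : WA R c) : MuLine c L) = g (w : MuLine c L) := rfl

theorem tau_galW (hd : GalData (A := A) (π := π) c g g')
    (hd' : GalData (A := A) (π := π) c g⁻¹ g'⁻¹) (y : WA R c ⊗[Vj R] R.O) :
    tau R c (Algebra.TensorProduct.map (galW R hd hd' : WA R c →ₐ[Vj R] WA R c)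
      (AlgHom.id (Vj R) R.O) y) =
      MulSemiringAction.toRingHom (c.Gal L) (RAlg c L FL) g (tau R c y) := by
  induction y using TensorProduct.induction_on with
  | zero => simp
  | tmul w o =>
    rw [Algebra.TensorProduct.map_tmul, tau_tmul, tau_tmul]
    show incMu c L FL (g (w : MuLine c L)) * incF c L FL (o : FL) =
      g • (incMu c L FL (w : MuLine c L) * incF c L FL (o : FL))
    rw [smul_mul', smul_incMu, smul_incF]
  | add x y hx hy => rw [map_add, map_add, hx, hy, map_add, map_add]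

theorem map_id_eq_smul (g' : c.Gal k) (y : RAlg c k Fk) :
    Algebra.TensorProduct.map (AlgHom.id (RatFunc k) Fk)
      (g' : MuLine c k →ₐ[RatFunc k] MuLine c k) y = g' • y := by
  induction y using TensorProduct.induction_on with
  | zero => simp
  | tmul f m => rw [Algebra.TensorProduct.map_tmul, smul_tmul']; rfl
  | add x y hx hy => rw [map_add, hx, hy, smul_add]

variable [FiniteDimensional (RatFunc L) FL] [Algebra.IsSeparable (RatFunc k) Fk]
variable {ι : Type*} [Fintype ι] [DecidableEq ι] {t : ι → R.O}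
  (h : Hyp (RatFunc L) R.O R.red (redVj R hJ.mem hJ.red_eq) t)
variable [IsInvariantSubring (c.Gal L) (BRing c A)]

/-- **`sp` is equivariant**: `sp (g • x) = g' • sp x` -/
theorem sp_gal (hd : GalData (A := A) (π := π) c g g')
    (hd' : GalData (A := A) (π := π) c g⁻¹ g'⁻¹) (x : CInt c FL A) :
    sp R c h (g • x) = g' • sp R c h x := by
  have hx : IsIntegral (BRing c A)
      (MulSemiringAction.toRingHom (c.Gal L) (RAlg c L FL) g (x : RAlg c L FL)) :=
    isIntegral_smul c FL A g x.2
  have h1 := Fermat.Agent.S18.C.TensorRed.sp_map (B := BRing c A) (redVj R hJ.mem hJ.red_eq)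
    (redW R hJ.mem hJ.red_eq c) R.red (redW_covW R hJ.mem hJ.red_eq c)
    (fun x => (algebraMap_redVj R hJ.mem hJ.red_eq x).symm)
    (finEt R hJ.mem hJ.red_eq h) (tau R c) h.basisV (muBasis c L FL h.basisE) (tau_basis R c h)
    (galW R hd hd') g' (MulSemiringAction.toRingHom (c.Gal L) (RAlg c L FL) g)
    (fun w => hd.redW R w) (tau_galW R hd hd') x hx
  rw [map_id_eq_smul] at h1
  exact h1

end Equivariance

/-! ### the package -/

section Exists

variable [FiniteDimensional (RatFunc L) FL] [Algebra.IsSeparable (RatFunc k) Fk]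
variable [IsInvariantSubring (c.Gal L) (BRing c A)]
variable [IsDomain (BRing c A)] [IsFractionRing (BRing c A) (MuLine c L)]

/-- **the K-model**: all the data consumed by the special-fibre count, in one statement. -/
theorem exists_model (hsurj : Function.Surjective R.red)
    (hdim : Module.finrank (RatFunc L) FL ≤ Module.finrank (RatFunc k) Fk)
    (hS : FinEt (BRing c A) (CInt c FL A))
    (φ : c.Gal L →* c.Gal k) (hφ : ∀ g : c.Gal L, GalData (A := A) (π := π) c g (φ g)) :
    ∃ (redBA : BRing c A →+* BRing c (⊤ : ValuationSubring k))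
      (sp : CInt c FL A →+* RAlg c k Fk),
      (∀ (b : BRing c A) (a s : A[X]), toRat c L (b : MuLine c L) * polyL s = polyL a →
        toRat c k (redBA b : MuLine c k) * polyK π s = polyK π a) ∧
      (∀ x : BRing c A, sp (algebraMap (BRing c A) (CInt c FL A) x) =
        incMu c k Fk (redBA x : MuLine c k)) ∧
      (∀ (o : R.O) (ho : IsIntegral (BRing c A) (incF c L FL (o : FL))),
        sp (⟨incF c L FL (o : FL), ho⟩ : CInt c FL A) = incF c k Fk (R.red o)) ∧
      (∀ (g : c.Gal L) (x : CInt c FL A), sp (g • x) = φ g • sp x) ∧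
      (∀ {ι' : Type} [Fintype ι'] (b : Module.Basis ι' (BRing c A) (CInt c FL A)),
        LinearIndependent (MuLine c k) (fun i => sp (b i)) ∧
          ⊤ ≤ Submodule.span (MuLine c k) (Set.range fun i => sp (b i))) := by
  classical
  obtain ⟨t, h⟩ := Fermat.Agent.S37.Wild.GaussA.exists_hyp R hJ.mem hJ.red_eq hsurj hdim
  refine ⟨redBA R hJ.mem hJ.red_eq c, sp R c h, fun b a s hrel => ?_, sp_BA R c h,
    sp_incF R c h, fun g x => ?_, fun b => basis_map R c h hS b⟩
  · exact redBA_rel R hJ.mem hJ.red_eq c b hrel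
  · have hd' : GalData (A := A) (π := π) c g⁻¹ (φ g)⁻¹ := by
      have := hφ g⁻¹
      rwa [map_inv] at this
    exact sp_gal R h (hφ g) hd' x

end Exists

end Fermat.Agent.S37.Wild.KModel
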