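import Mathlib
import Fermat.Agent.S18.C.FinalHesse
import Fermat.Agent.S18.C.FinalLegendre
import Fermat.Agent.S18.C.SurfaceBFinal
import Fermat.Agent.S37.Wild.SpecialPointsKModel
import Fermat.Agent.S37.Wild.GalDataInst

/-!
# PROJECT I (S37), slice I-1b-wild (W4a, helper6): contract K3 WITHOUT `ReductionInputsModL`

`Wire.K3 N A` (the lower bound for the different of the supersingular fibre when `1728 = 0` in the
residue field, i.e. `ℓ ∈ {2, 3}`) from a Gauss datum
`G : Deuring.Core.GaussDatum A (residue A) ℚ̄(X₀(N)) k(X₀(N))` with `j` Gauss-integral and reducing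
to `j̄` (`[Wild.KModel.JIn G]`) and `red` onto.  No place map, no `ReductionInputsModL`.

* `k3_hesse`    : `ℓ = 2`  (Hesse cover; `FinalHesse.k3_hesse_of_kside` +
                  `Wild.SpecialPointsKModel.kside` + `SurfaceBFinal.hesse_…`);
* `k3_legendre` : `ℓ = 3`  (recentred Legendre cover);
* `k3`          : every prime `ℓ ∤ N` (`Wire.k3_of_ne` for `ℓ ≥ 5`).
-/

set_option autoImplicit false
set_option synthInstance.maxHeartbeats 400000
set_option linter.unusedSectionVars false
set_option linter.style.haveILetI false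

noncomputable section

namespace Fermat.Agent.S37.Wild.K3

open AlgebraicCurve ModularCurve IntermediateField IsDedekindDomain
open Fermat.Agent.S18.A Fermat.Agent.S18.B Fermat.Agent.S24.FF
open Fermat.Agent.S18.C.Defs Fermat.Agent.S18.C.SurfaceDefs Fermat.Agent.S18.C.FinEt
open Fermat.Agent.S18.C.CoverInst Fermat.Agent.S18.C.GenericCount Fermat.Agent.S18.C.BRingLocal
open Fermat.Agent.S18.C.Hesse Fermat.Agent.S18.C.Legendre Fermat.Agent.S18.C.GalRed
open Fermat.Agent.S18.C
open Fermat.Agent.S37.Deuring.Core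
open Fermat.Agent.S24.DegreeAlg (jgen)

local notation "Kb" => AlgebraicClosure ℚ

attribute [local instance 2000] Fermat.Agent.S18.C.KModelX0.algkFk

variable (N : ℕ) [NeZero N] (A : ValuationSubring (AlgebraicClosure ℚ))
  (G : GaussDatum A (IsLocalRing.residue A) ↥(modularFunctionFieldBar N)
    ↥(modularFunctionFieldFullC (IsLocalRing.ResidueField A) N))
  [hJ : Fermat.Agent.S37.Wild.KModel.JIn G]

/-- **Contract K3 for `ℓ = 2`** from a Gauss datum. -/
theorem k3_hesse (hsurj : Function.Surjective G.red) (hℓN : ¬ 2 ∣ N) (hA : A.LiesOverPrime 2) :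
    Fermat.Agent.S18.Wire.K3 N A := by
  intro _ hsep _
  haveI := Surface.isDiscreteValuationRing_VQ A hA
  have h3 : (3 : Kb) ≠ 0 := three_ne_zero
  have h2k : (2 : IsLocalRing.ResidueField A) = 0 := by
    simpa using Fermat.Agent.S18.ResidueBasics.residue_natCast_eq_zero A hA
  have h3' : (3 : IsLocalRing.ResidueField A) ≠ 0 :=
    NumbersTop.three_ne_zero_of_two (IsLocalRing.ResidueField A) h2k
  haveI : hesse.Good (IsLocalRing.ResidueField A) :=
    hesse_good_of_two_eq_zero (IsLocalRing.ResidueField A) h2k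
  haveI : hesse.Good (ZMod 2) := hesse_good_of_two_eq_zero (ZMod 2) (by decide)
  have h2v : A.valuation (2 : Kb) < 1 := by
    simpa using FinalPrep.valuation_natCast_lt_one hA
  have hb : Surface.PointwiseNonvanishing N hesse A := fun t ht =>
    SurfaceBFinal.hesse_evDiscAtB_discrCInt_ne_zero N A t ht
  obtain ⟨ω, hω⟩ := NumbersHesse.exists_omega Kb
  have hωS : (⟨ω, NumbersHesse.omega_mem A hω⟩ : A) ^ 2 + ⟨ω, NumbersHesse.omega_mem A hω⟩ + 1 = 0 :=
    Subtype.ext (by push_cast; exact hω)
  have hωk : (IsLocalRing.residue A ⟨ω, NumbersHesse.omega_mem A hω⟩) ^ 2 +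
      IsLocalRing.residue A ⟨ω, NumbersHesse.omega_mem A hω⟩ + 1 = 0 := by
    rw [← map_pow, ← map_add, ← map_one (IsLocalRing.residue A), ← map_add, hωS, map_zero]
  haveI := isInvariantSubring_hesse hω A h2v
  haveI := NumbersTop.hesse_isInvariantSubring_top (IsLocalRing.ResidueField A) h2k hωk
  haveI := KModelX0.finiteDimensional_FL N
  haveI := KModelX0.isSeparable_Fk A N
  have hS := Surface.finEt_of_pointwise N hesse A hℓN hA hb
  have hk := Fermat.Agent.S37.Wild.SpecialPointsKModel.kside G hesse hsurj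
    (KModelX0.finrank_le hA hℓN) hS
    (hesseRed A.subtype A.subtype_injective (IsLocalRing.residue A) hωS h3 h3').toMonoidHom
    (Fermat.Agent.S37.Wild.GalDataInst.galData_hesseRed A (IsLocalRing.residue A) hωS h3 h3')
  exact FinalHesse.k3_hesse_of_kside N A hℓN hA hb hωS h3 h3' ⟨hk.1, hk.2.2⟩ hsep

/-- **Contract K3 for `ℓ = 3`** from a Gauss datum. -/
theorem k3_legendre (hsurj : Function.Surjective G.red) (hℓN : ¬ 3 ∣ N)
    (hA : A.LiesOverPrime 3) : Fermat.Agent.S18.Wire.K3 N A := by
  intro _ hsep _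
  haveI := Surface.isDiscreteValuationRing_VQ A hA
  have h2 : (2 : Kb) ≠ 0 := two_ne_zero
  have h3k : (3 : IsLocalRing.ResidueField A) = 0 := by
    simpa using Fermat.Agent.S18.ResidueBasics.residue_natCast_eq_zero A hA
  have h2' : (2 : IsLocalRing.ResidueField A) ≠ 0 :=
    NumbersTop.two_ne_zero_of_three (IsLocalRing.ResidueField A) h3k
  haveI : legendre.Good (IsLocalRing.ResidueField A) :=
    legendre_good_of_three_eq_zero (IsLocalRing.ResidueField A) h3k
  haveI : legendre.Good (ZMod 3) := legendre_good_of_three_eq_zero (ZMod 3) (by decide)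
  have h3v : A.valuation (3 : Kb) < 1 := by
    simpa using FinalPrep.valuation_natCast_lt_one hA
  have hb : Surface.PointwiseNonvanishing N legendre A := fun t ht =>
    SurfaceBFinal.legendre_evDiscAtB_discrCInt_ne_zero N A h3v t ht
  haveI := isInvariantSubring_legendre A h3v
  haveI := NumbersTop.legendre_isInvariantSubring_top (IsLocalRing.ResidueField A) h3k
  haveI := KModelX0.finiteDimensional_FL N
  haveI := KModelX0.isSeparable_Fk A N
  have hS := Surface.finEt_of_pointwise N legendre A hℓN hA hb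
  have hk := Fermat.Agent.S37.Wild.SpecialPointsKModel.kside G legendre hsurj
    (KModelX0.finrank_le hA hℓN) hS
    (legendreRed A.subtype A.subtype_injective (IsLocalRing.residue A) h2 h2').toMonoidHom
    (Fermat.Agent.S37.Wild.GalDataInst.galData_legendreRed A (IsLocalRing.residue A) h2 h2')
  exact FinalLegendre.k3_legendre_of_kside N A hℓN hA hb h2 h2' ⟨hk.1, hk.2.2⟩ hsep

/-- **Contract K3 for every prime `ℓ ∤ N`** from a Gauss datum (no `ReductionInputsModL`). -/
theorem k3 (hsurj : Function.Surjective G.red) {ℓ : ℕ} [Fact ℓ.Prime] (hℓN : ¬ ℓ ∣ N)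
    (hA : A.LiesOverPrime ℓ) : Fermat.Agent.S18.Wire.K3 N A := by
  by_cases h1728 : (1728 : IsLocalRing.ResidueField A) = 0
  · rcases FinalPrep.ell_eq_two_or_three hA h1728 with rfl | rfl
    · exact k3_hesse N A G hsurj hℓN hA
    · exact k3_legendre N A G hsurj hℓN hA
  · exact Fermat.Agent.S18.Wire.k3_of_ne N A h1728

end Fermat.Agent.S37.Wild.K3
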