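import Mathlib
import Fermat.Agent.S37.Wild.K3
import Fermat.Agent.S18.B.GenusLe
import Fermat.Agent.S18.C.FormsZMod

/-!
# PROJECT I (S37), slice I-1b-wild (W4b, helper6): `g(F_L) ≤ g(F_k)` for `ℓ ∈ {2, 3}` WITHOUT
`ReductionInputsModL`

`F_L = ℚ̄(X₀(N))`, `F_k = k(X₀(N))`, `k = κ(A)`, `A` a valuation ring of `ℚ̄` over a prime `ℓ ∤ N`.

* `finrank_eq` : `[F_L : ℚ̄(j)] = [F_k : k(j̄)]` (`= ψ(N)`; `Forms` + `FormsZMod`), no Gauss datum;
* `genus_le_of_collision` : when `1728 = 0` in `k` (`ℓ ∈ {2, 3}`), from a Gauss datum `G` with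
  `[Wild.KModel.JIn G]` and `red` onto (contract K3 = `Wild.K3.k3`), the Hurwitz formulas on both
  sides and the cusp count `hcp` (slice I-1b-cusps): `gL ≤ gk`;
* `genus_le` : every prime `ℓ ∤ N`, with the case `1728 ≠ 0` (`ℓ ≥ 5`, slice I-1b-diff) as a
  hypothesis.
-/

set_option autoImplicit false
set_option synthInstance.maxHeartbeats 400000
set_option linter.unusedSectionVars false
set_option linter.style.haveILetI false

noncomputable section

namespace Fermat.Agent.S37.Wild.GenusLe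

open AlgebraicCurve ModularCurve IntermediateField
open Fermat.Agent.S18.A Fermat.Agent.S18.B
open Fermat.Agent.S37.Deuring.Core
open Fermat.Agent.S24.DegreeAlg (jgen)

local notation "Kb" => AlgebraicClosure ℚ

attribute [local instance 2000] Fermat.Agent.S18.C.KModelX0.algkFk

variable (N : ℕ) [NeZero N] (A : ValuationSubring (AlgebraicClosure ℚ))

/-- **`[F_L : ℚ̄(j)] = [F_k : k(j̄)]`** (both are `ψ(N)`), for `A` over a prime `ℓ ∤ N`. -/
theorem finrank_eq {ℓ : ℕ} [Fact ℓ.Prime] (hℓN : ¬ ℓ ∣ N) (hA : A.LiesOverPrime ℓ)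
    [IsAlgClosed (IsLocalRing.ResidueField A)] :
    Module.finrank Kb⟮jgen N⟯ ↥(modularFunctionFieldBar N)
      = Module.finrank (IsLocalRing.ResidueField A)⟮FkBasics.jk (IsLocalRing.ResidueField A) N⟯
          ↥(modularFunctionFieldFullC (IsLocalRing.ResidueField A) N) := by
  haveI := Fermat.Agent.S18.ResidueBasics.charP_residueField A hA
  letI : Algebra (ZMod ℓ) (IsLocalRing.ResidueField A) := ZMod.algebra _ ℓ
  rw [Fermat.Agent.S18.C.Forms.finrank_bar_eq_dedekindPsi N,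
    Fermat.Agent.S18.C.FormsZMod.finrank_fullC_eq ℓ N (IsLocalRing.ResidueField A) hℓN]

variable (G : GaussDatum A (IsLocalRing.residue A) ↥(modularFunctionFieldBar N)
    ↥(modularFunctionFieldFullC (IsLocalRing.ResidueField A) N))
  [hJ : Fermat.Agent.S37.Wild.KModel.JIn G]

/-- **`g(F_L) ≤ g(F_k)` when `1728 = 0` in `k`** (`ℓ ∈ {2, 3}`), from a Gauss datum. -/
theorem genus_le_of_collision (hsurj : Function.Surjective G.red) {ℓ : ℕ} [Fact ℓ.Prime]
    (hℓN : ¬ ℓ ∣ N) (hA : A.LiesOverPrime ℓ) [IsAlgClosed (IsLocalRing.ResidueField A)]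
    (hsep : Algebra.IsSeparable
      (IsLocalRing.ResidueField A)⟮FkBasics.jk (IsLocalRing.ResidueField A) N⟯
      ↥(modularFunctionFieldFullC (IsLocalRing.ResidueField A) N))
    {gL gk : ℕ}
    (hHL : Defs.HurwitzFormula (Instances.isFF_jgen N) (Instances.isSeparable_jgen N) gL)
    (hHk : Defs.HurwitzFormula (FkBasics.isFF (IsLocalRing.ResidueField A) N) hsep gk)
    (hcp : (FibreSep.poles (FkBasics.isFF (IsLocalRing.ResidueField A) N) hsep).card
      ≤ (FibreSep.poles (Instances.isFF_jgen N) (Instances.isSeparable_jgen N)).card)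
    (h1728 : (1728 : IsLocalRing.ResidueField A) = 0) : gL ≤ gk :=
  GenusIneqDiff.genus_le_X0_of_collision N hsep hHL hHk (finrank_eq N A hℓN hA)
    (Fermat.Agent.S37.Wild.K3.k3 N A G hsurj hℓN hA hsep h1728) hcp

/-- **`g(F_L) ≤ g(F_k)` for every prime `ℓ ∤ N`**, the case `1728 ≠ 0` (`ℓ ≥ 5`) being a
hypothesis. -/
theorem genus_le (hsurj : Function.Surjective G.red) {ℓ : ℕ} [Fact ℓ.Prime]
    (hℓN : ¬ ℓ ∣ N) (hA : A.LiesOverPrime ℓ) [IsAlgClosed (IsLocalRing.ResidueField A)]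
    (hsep : Algebra.IsSeparable
      (IsLocalRing.ResidueField A)⟮FkBasics.jk (IsLocalRing.ResidueField A) N⟯
      ↥(modularFunctionFieldFullC (IsLocalRing.ResidueField A) N))
    {gL gk : ℕ}
    (hHL : Defs.HurwitzFormula (Instances.isFF_jgen N) (Instances.isSeparable_jgen N) gL)
    (hHk : Defs.HurwitzFormula (FkBasics.isFF (IsLocalRing.ResidueField A) N) hsep gk)
    (hcp : (FibreSep.poles (FkBasics.isFF (IsLocalRing.ResidueField A) N) hsep).card
      ≤ (FibreSep.poles (Instances.isFF_jgen N) (Instances.isSeparable_jgen N)).card)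
    (hne : (1728 : IsLocalRing.ResidueField A) ≠ 0 → gL ≤ gk) : gL ≤ gk := by
  by_cases h1728 : (1728 : IsLocalRing.ResidueField A) = 0
  · exact genus_le_of_collision N A G hsurj hℓN hA hsep hHL hHk hcp h1728
  · exact hne h1728

end Fermat.Agent.S37.Wild.GenusLe
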