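import Mathlib
import Fermat.Agent.S18.C.SpecialPointsKModel

/-!
# PROJECT I (S37), slice I-1b-wild (W2), datum-free half: the K-side package from the FIELDS of a
model

`S18/C/SpecialPointsKModel.kside` = `KModel.exists_model` (the only place where the reduction datum
`R` enters) followed by a datum-free argument.  This file isolates the datum-free argument:
`k = κ(A)`, `B_A = BRing c A`, `C_A = CInt c FL A`, `D₀ = BRing c ⊤`, `C_k = CInt c Fk ⊤`.

* **`kside_of_fields`** : from `redBA`, `sp` with the four properties output by ANY version of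
  `exists_model` (`hrel`, `sp_BA`, `sp_smul`, `basis_map`) and `hS : FinEt B_A C_A`:
  `FinEt D₀ C_k ∧ finrank D₀ C_k = finrank B_A C_A ∧
   ∀ g, GenericCount.phik A (evClosedB c A) g = #{x : MaximalSpectrum C_k // φ g stabilises x}`;
* `kside_of_exists` : the same from the existential statement (the conjunct on `R.O` removed).

No reduction datum, no `ReductionInputsModL`, no function-field hypotheses: `FL`, `Fk` are
arbitrary commutative algebras over `RatFunc L`, `RatFunc k`.
-/

set_option autoImplicit false
set_option linter.unusedSectionVars false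

noncomputable section

namespace Fermat.Agent.S37.Wild.KSideOfModel

open Polynomial Module Fermat.Agent.S18.C.Defs Fermat.Agent.S18.C.SurfaceDefs
  Fermat.Agent.S18.C.FinEt Fermat.Agent.S18.C.BRingLocal Fermat.Agent.S18.C.GenericCount
  Fermat.Agent.S18.C.GaussA Fermat.Agent.S18.C.GaussA2 Fermat.Agent.S18.C.SpecialPointsInst
  Fermat.Agent.S18.C

variable (c : Cover) {L : Type*} [Field L] [c.Good L] (A : ValuationSubring L)
  [IsAlgClosed (IsLocalRing.ResidueField A)] [c.Good (IsLocalRing.ResidueField A)]
  (FL : Type*) [CommRing FL] [Algebra (RatFunc L) FL]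
  (Fk : Type*) [CommRing Fk] [Algebra (RatFunc (IsLocalRing.ResidueField A)) Fk]
  [IsInvariantSubring (c.Gal L) (BRing c A)]
  [IsInvariantSubring (c.Gal (IsLocalRing.ResidueField A))
    (BRing c (⊤ : ValuationSubring (IsLocalRing.ResidueField A)))]

/-- **the K-side package from the fields of a model** (datum-free) -/
theorem kside_of_fields (hS : FinEt (BRing c A) (CInt c FL A))
    (φ : c.Gal L →* c.Gal (IsLocalRing.ResidueField A))
    (redBA : BRing c A →+* BRing c (⊤ : ValuationSubring (IsLocalRing.ResidueField A)))
    (sp : CInt c FL A →+* RAlg c (IsLocalRing.ResidueField A) Fk)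
    (hrel : ∀ (b : BRing c A) (a s : A[X]), toRat c L (b : MuLine c L) * polyL s = polyL a →
      toRat c (IsLocalRing.ResidueField A)
          (redBA b : MuLine c (IsLocalRing.ResidueField A)) * polyK (IsLocalRing.residue A) s =
        polyK (IsLocalRing.residue A) a)
    (sp_BA : ∀ x : BRing c A, sp (algebraMap (BRing c A) (CInt c FL A) x) =
      incMu c (IsLocalRing.ResidueField A) Fk
        (redBA x : MuLine c (IsLocalRing.ResidueField A)))
    (sp_smul : ∀ (g : c.Gal L) (x : CInt c FL A), sp (g • x) = φ g • sp x)
    (hbm : ∀ (n : ℕ) (b : Basis (Fin n) (BRing c A) (CInt c FL A)),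
      LinearIndependent (MuLine c (IsLocalRing.ResidueField A)) (fun i => sp (b i)) ∧
        ⊤ ≤ Submodule.span (MuLine c (IsLocalRing.ResidueField A))
          (Set.range fun i => sp (b i))) :
    FinEt (BRing c (⊤ : ValuationSubring (IsLocalRing.ResidueField A)))
        (CInt c Fk (⊤ : ValuationSubring (IsLocalRing.ResidueField A))) ∧
      Module.finrank (BRing c (⊤ : ValuationSubring (IsLocalRing.ResidueField A)))
          (CInt c Fk (⊤ : ValuationSubring (IsLocalRing.ResidueField A))) =
        Module.finrank (BRing c A) (CInt c FL A) ∧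
      ∀ g : c.Gal L, phik (C := CInt c FL A) A (evClosedB c A) g =
        Nat.card {x : MaximalSpectrum
            (CInt c Fk (⊤ : ValuationSubring (IsLocalRing.ResidueField A))) //
          ∀ y ∈ x.asIdeal, φ g • y ∈ x.asIdeal} := by
  have hred : ∀ x : BRing c A,
      epsTop c (IsLocalRing.ResidueField A) (redBA x) = evClosedB c A x :=
    fun x => SpecialPointsKModel.epsTop_of_rel (IsLocalRing.residue A) c redBA hrel x
  exact ⟨SpecialIso.finEt_Ck_of_basis_map c A FL Fk redBA sp sp_BA hS hbm,
    SpecialIso.finrank_Ck_of_basis_map c A FL Fk redBA sp sp_BA hS hbm,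
    fun g => SpecialPointsFinal.phik_eq_card_stable c A FL Fk redBA hred sp sp_BA hS hbm φ
      sp_smul g⟩

/-- the same from the existential statement output by a version of `exists_model` (with the
conjunct on the Gauss valuation ring removed) -/
theorem kside_of_exists (hS : FinEt (BRing c A) (CInt c FL A))
    (φ : c.Gal L →* c.Gal (IsLocalRing.ResidueField A))
    (hmodel : ∃ (redBA : BRing c A →+*
        BRing c (⊤ : ValuationSubring (IsLocalRing.ResidueField A)))
      (sp : CInt c FL A →+* RAlg c (IsLocalRing.ResidueField A) Fk),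
      (∀ (b : BRing c A) (a s : A[X]), toRat c L (b : MuLine c L) * polyL s = polyL a →
        toRat c (IsLocalRing.ResidueField A)
            (redBA b : MuLine c (IsLocalRing.ResidueField A)) *
          polyK (IsLocalRing.residue A) s = polyK (IsLocalRing.residue A) a) ∧
      (∀ x : BRing c A, sp (algebraMap (BRing c A) (CInt c FL A) x) =
        incMu c (IsLocalRing.ResidueField A) Fk
          (redBA x : MuLine c (IsLocalRing.ResidueField A))) ∧
      (∀ (g : c.Gal L) (x : CInt c FL A), sp (g • x) = φ g • sp x) ∧
      (∀ {ι' : Type} [Fintype ι'] (b : Module.Basis ι' (BRing c A) (CInt c FL A)),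
        LinearIndependent (MuLine c (IsLocalRing.ResidueField A)) (fun i => sp (b i)) ∧
          ⊤ ≤ Submodule.span (MuLine c (IsLocalRing.ResidueField A))
            (Set.range fun i => sp (b i)))) :
    FinEt (BRing c (⊤ : ValuationSubring (IsLocalRing.ResidueField A)))
        (CInt c Fk (⊤ : ValuationSubring (IsLocalRing.ResidueField A))) ∧
      Module.finrank (BRing c (⊤ : ValuationSubring (IsLocalRing.ResidueField A)))
          (CInt c Fk (⊤ : ValuationSubring (IsLocalRing.ResidueField A))) =
        Module.finrank (BRing c A) (CInt c FL A) ∧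
      ∀ g : c.Gal L, phik (C := CInt c FL A) A (evClosedB c A) g =
        Nat.card {x : MaximalSpectrum
            (CInt c Fk (⊤ : ValuationSubring (IsLocalRing.ResidueField A))) //
          ∀ y ∈ x.asIdeal, φ g • y ∈ x.asIdeal} := by
  obtain ⟨redBA, sp, hrel, sp_BA, sp_smul, hbm⟩ := hmodel
  exact kside_of_fields c A FL Fk hS φ redBA sp hrel sp_BA sp_smul fun n b => hbm b

end Fermat.Agent.S37.Wild.KSideOfModel
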